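import Mathlib.FieldTheory.IntermediateField.Adjoin.Basic
import Mathlib.Logic.Equiv.Fin.Basic
import Mathlib.Analysis.Complex.Basic

/-!
# Systems of numbers with rational sums of products

If the span over `ℤ` of finitely many vectors indexed by `N` contains `1`, is closed under
products and has rational coordinate sums, the coordinates lie in a field generated by finitely
many of them and every embedding of that field permutes the systems.
-/

set_option autoImplicit false
set_option linter.unusedSectionVars false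
set_option linter.style.haveILetI false

noncomputable section

open Set
open scoped ComplexConjugate

namespace FA.QuaternionArith

theorem exists_indicator {κ N : Type*} [Fintype κ] {K : Type*} [Field K] [Algebra K ℂ]
    (Z : N → κ → ℂ) (k0 : κ)
    (h : ∀ k, (fun n => Z n k) ≠ (fun n => Z n k0) → ∃ n, Z n k ≠ Z n k0 ∧
      Z n k ∈ range (algebraMap K ℂ) ∧ Z n k0 ∈ range (algebraMap K ℂ)) :
    ∃ y ∈ Algebra.adjoin K (range Z), ∀ k, y k =
      haveI := Classical.propDecidable ((fun n => Z n k) = fun n => Z n k0)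
      if (fun n => Z n k) = (fun n => Z n k0) then 1 else 0 := by
  classical
  simp only [Set.mem_range] at h
  choose n hn ha' hb' using h
  choose a ha using ha'
  choose b hb using hb'
  set T := (Finset.univ.filter fun k : κ => (fun n => Z n k) ≠ fun n => Z n k0).attach
  set φ : {k // k ∈ Finset.univ.filter fun k : κ => (fun n => Z n k) ≠ fun n => Z n k0} →
      κ → ℂ := fun k => ((b k.1 (Finset.mem_filter.1 k.2).2 - a k.1 (Finset.mem_filter.1 k.2).2)⁻¹ :
        K) • (Z (n k.1 (Finset.mem_filter.1 k.2).2) -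
          algebraMap K (κ → ℂ) (a k.1 (Finset.mem_filter.1 k.2).2))
  refine ⟨∏ k ∈ T, φ k, prod_mem fun k _ => Subalgebra.smul_mem _ (sub_mem
    (Algebra.subset_adjoin (mem_range_self _)) (Subalgebra.algebraMap_mem _ _)) _, fun l => ?_⟩
  have hφ : ∀ k l, φ k l = (algebraMap K ℂ (b k.1 (Finset.mem_filter.1 k.2).2) -
      algebraMap K ℂ (a k.1 (Finset.mem_filter.1 k.2).2))⁻¹ *
        (Z (n k.1 (Finset.mem_filter.1 k.2).2) l -
          algebraMap K ℂ (a k.1 (Finset.mem_filter.1 k.2).2)) := fun k l => by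
    simp [φ, Pi.algebraMap_apply, Algebra.smul_def]
  rw [Finset.prod_apply]
  split_ifs with hl
  · refine Finset.prod_eq_one fun k _ => ?_
    rw [hφ, show Z _ l = Z _ k0 from congrFun hl _, ← hb, inv_mul_cancel₀]
    rw [sub_ne_zero, hb, ha]
    exact (hn _ _).symm
  · refine Finset.prod_eq_zero (i := ⟨l, Finset.mem_filter.2 ⟨Finset.mem_univ _, hl⟩⟩)
      (Finset.mem_attach _ _) ?_
    rw [hφ, ha, sub_self, mul_zero]

section

variable {ι N : Type*} [Fintype ι] {V : N → ι → ℂ}
  (hmul : ∀ x ∈ Submonoid.closure (range V), x ∈ Submodule.span ℤ (range V))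
  (hrat : ∀ x ∈ Submodule.span ℤ (range V), ∃ q : ℚ, ∑ i, x i = q)

include hmul hrat

theorem sum_mem_field {K : IntermediateField ℚ ℂ} :
    ∀ y ∈ Algebra.adjoin K (range V), ∑ i, y i ∈ K := by
  intro y hy
  rw [← Subalgebra.mem_toSubmodule, Algebra.adjoin_eq_span] at hy
  induction hy using Submodule.span_induction with
  | mem x hx =>
    obtain ⟨q, hq⟩ := hrat x (hmul x hx)
    rw [hq]
    exact SubfieldClass.ratCast_mem K q
  | zero => simp
  | add x y _ _ hx hy =>
    simp only [Pi.add_apply, Finset.sum_add_distrib]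
    exact add_mem hx hy
  | smul a x _ hx =>
    simp only [Pi.smul_apply, IntermediateField.smul_def, smul_eq_mul, ← Finset.mul_sum]
    exact mul_mem a.2 hx

/-- **A number field containing the systems, whose embeddings permute them.** -/
theorem exists_field (hint : ∀ n i, IsIntegral ℚ (V n i)) :
    ∃ L : IntermediateField ℚ ℂ, FiniteDimensional ℚ L ∧ (∀ n i, V n i ∈ L) ∧
      (∃ S : Set ℂ, S ⊆ {x | ∃ n i, V n i = x} ∧ L = IntermediateField.adjoin ℚ S) ∧
      ∀ (σ : L →+* ℂ) (hm : ∀ n i, V n i ∈ L),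
        ∃ π : Equiv.Perm ι, ∀ n i, σ ⟨V n i, hm n i⟩ = V n (π i) := by
  classical
  have hsep : ∀ p : ι × ι, ∃ s : Finset N, (fun n => V n p.1) ≠ (fun n => V n p.2) →
      ∃ n ∈ s, V n p.1 ≠ V n p.2 := fun p => by
    by_cases h : (fun n => V n p.1) = fun n => V n p.2
    · exact ⟨∅, fun h' => absurd h h'⟩
    · obtain ⟨n, hn⟩ := Function.ne_iff.1 h
      exact ⟨{n}, fun _ => ⟨n, Finset.mem_singleton_self n, hn⟩⟩
  choose s hs using hsep
  set S : Set ℂ := ↑((Finset.univ.biUnion s ×ˢ (Finset.univ : Finset ι)).image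
    fun q => V q.1 q.2) with hS
  set L := IntermediateField.adjoin ℚ S with hL
  have hSV : S ⊆ {x | ∃ n i, V n i = x} := fun x hx => by
    simp only [hS, Finset.coe_image, Set.mem_image] at hx
    obtain ⟨q, -, rfl⟩ := hx
    exact ⟨q.1, q.2, rfl⟩
  have hfin : FiniteDimensional ℚ L := by
    haveI : Finite S := by rw [hS]; exact (Finset.finite_toSet _).to_subtype
    refine IntermediateField.finiteDimensional_adjoin fun x hx => ?_
    obtain ⟨n, i, rfl⟩ := hSV hx
    exact hint n i
  have hin : ∀ p : ι × ι, ∀ n ∈ s p, ∀ i, V n i ∈ L := fun p n hn i =>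
    IntermediateField.subset_adjoin ℚ S (Finset.mem_coe.2 (Finset.mem_image.2
      ⟨(n, i), Finset.mem_product.2
        ⟨Finset.mem_biUnion.2 ⟨p, Finset.mem_univ _, hn⟩, Finset.mem_univ _⟩, rfl⟩))
  have hall : ∀ n i, V n i ∈ L := fun n i0 => by
    obtain ⟨y, hy, hye⟩ := exists_indicator (K := L) V i0 fun k hk => by
      obtain ⟨n, hn, hne⟩ := hs (k, i0) hk
      exact ⟨n, hne, ⟨⟨_, hin _ n hn k⟩, rfl⟩, ⟨⟨_, hin _ n hn i0⟩, rfl⟩⟩
    have h1 := sum_mem_field hmul hrat (y * V n)
      (mul_mem hy (Algebra.subset_adjoin (mem_range_self n)))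
    set N0 := (Finset.univ.filter fun k => (fun n => V n k) = fun n => V n i0).card
    have hN0 : (N0 : ℂ) ≠ 0 := Nat.cast_ne_zero.2 (Finset.card_ne_zero.2 ⟨i0, by simp⟩)
    have h2 : ∑ i, (y * V n) i = (N0 : ℂ) * V n i0 := by
      rw [← nsmul_eq_mul, ← Finset.sum_const, Finset.sum_filter]
      refine Finset.sum_congr rfl fun k _ => ?_
      rw [Pi.mul_apply, hye]
      split_ifs with hk
      · rw [one_mul]
        exact congrFun hk n
      · rw [zero_mul]
    rw [h2] at h1
    rw [← mul_div_cancel_left₀ (V n i0) hN0]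
    exact div_mem h1 (natCast_mem L N0)
  refine ⟨L, hfin, hall, ⟨S, hSV, rfl⟩, fun σ hm => ?_⟩
  set W : N → ι → ℂ := fun n i => σ ⟨V n i, hm n i⟩
  set Z : N → ι ⊕ ι → ℂ := fun n => Sum.elim (V n) (W n) with hZ
  have hsum : ∀ y ∈ Algebra.adjoin ℂ (range Z), ∑ i, y (.inl i) = ∑ i, y (.inr i) := by
    intro y hy
    rw [← Subalgebra.mem_toSubmodule, Algebra.adjoin_eq_span] at hy
    induction hy using Submodule.span_induction with
    | mem x hx =>
      obtain ⟨u, hu, rfl⟩ : ∃ u : ι → L, (fun i => (u i : ℂ)) ∈ Submonoid.closure (range V) ∧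
          Sum.elim (fun i => (u i : ℂ)) (fun i => σ (u i)) = x := by
        induction hx using Submonoid.closure_induction with
        | mem x hx =>
          obtain ⟨n, rfl⟩ := hx
          exact ⟨fun i => ⟨V n i, hm n i⟩, Submonoid.subset_closure (mem_range_self n), rfl⟩
        | one => exact ⟨1, one_mem _, by funext k; cases k <;> simp⟩
        | mul x y _ _ hx hy =>
          obtain ⟨u, hu, rfl⟩ := hx
          obtain ⟨v, hv, rfl⟩ := hy
          exact ⟨u * v, by simpa [Pi.mul_def] using mul_mem hu hv,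
            by funext k; cases k <;> simp⟩
      obtain ⟨q, hq⟩ := hrat _ (hmul _ hu)
      simp only [Sum.elim_inl, Sum.elim_inr]
      rw [← map_sum, hq, show ∑ i, u i = (q : L) from Subtype.ext (by push_cast; exact hq),
        map_ratCast]
    | zero => simp
    | add x y _ _ hx hy => simp [Finset.sum_add_distrib, hx, hy]
    | smul a x _ hx => simp [← Finset.mul_sum, hx]
  have hcard : ∀ r : N → ℂ, (Finset.univ.filter fun i => (fun n => W n i) = r).card =
      (Finset.univ.filter fun i => (fun n => V n i) = r).card := by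
    intro r
    by_cases hr : ∃ k, (fun n => Z n k) = r
    · obtain ⟨k0, rfl⟩ := hr
      obtain ⟨y, hy, hye⟩ := exists_indicator (K := ℂ) Z k0 fun k hk => by
        obtain ⟨n, hn⟩ := Function.ne_iff.1 hk
        exact ⟨n, hn, ⟨_, rfl⟩, ⟨_, rfl⟩⟩
      have h := hsum y hy
      simp only [hye, Finset.sum_boole] at h
      exact (Nat.cast_inj.1 h).symm
    · push Not at hr
      rw [Finset.filter_false_of_mem (p := fun i => (fun n => W n i) = r) fun i _ => hr (.inr i),
        Finset.filter_false_of_mem (p := fun i => (fun n => V n i) = r) fun i _ => hr (.inl i)]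
  let e : ∀ r : N → ℂ, {i // (fun n => W n i) = r} ≃ {i // (fun n => V n i) = r} := fun r =>
    Fintype.equivOfCardEq (by rw [Fintype.card_subtype, Fintype.card_subtype, hcard r])
  refine ⟨Equiv.ofFiberEquiv e, fun n i => ?_⟩
  exact (congrFun (Equiv.ofFiberEquiv_map e i) n).symm

end

end FA.QuaternionArith

end
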