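import Mathlib.LinearAlgebra.Lagrange
import Mathlib.RingTheory.MvPolynomial.Symmetric.NewtonIdentities
import Mathlib.RingTheory.Polynomial.Vieta
import Mathlib.RingTheory.IntegralClosure.IntegrallyClosed
import Mathlib.RingTheory.Polynomial.RationalRoot
import Mathlib.Analysis.Complex.Basic

/-!
# Power sums with bounded denominators

If all power sums of finitely many complex numbers have denominators dividing one integer, the
numbers are algebraic integers, their monic polynomial has integer coefficients and their sum is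
an integer.
-/

set_option autoImplicit false
set_option linter.unusedSectionVars false
set_option linter.style.haveILetI false

noncomputable section

open Polynomial

namespace FA.QuaternionArith

variable {ι : Type*} [Fintype ι] {c : ι → ℂ} {D : ℕ}

/-- **Integrality.** -/
theorem isIntegral_of_powerSums (hD : D ≠ 0) (h : ∀ r, ∃ z : ℤ, (D : ℂ) * ∑ k, c k ^ r = z)
    (i : ι) : IsIntegral ℤ (c i) := by
  classical
  set F : Finset ℂ := Finset.univ.image c with hF
  set L := Lagrange.basis F id (c i) with hL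
  set N := (Finset.univ.filter fun k => c k = c i).card with hN
  have hN0 : (N : ℂ) ≠ 0 :=
    Nat.cast_ne_zero.2 (Finset.card_ne_zero.2 ⟨i, by simp⟩)
  have hD0 : (D : ℂ) ≠ 0 := Nat.cast_ne_zero.2 hD
  have hsel : ∀ r : ℕ, ∑ k, L.eval (c k) * c k ^ r = (N : ℂ) * c i ^ r := fun r => by
    rw [← Finset.sum_filter_add_sum_filter_not Finset.univ (fun k => c k = c i),
      Finset.sum_eq_zero (s := Finset.univ.filter fun k => ¬c k = c i) fun k hk => by
        rw [hL, show c k = id (c k) from rfl, Lagrange.eval_basis_of_ne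
          (fun e => (Finset.mem_filter.1 hk).2 e.symm)
          (Finset.mem_image_of_mem c (Finset.mem_univ k)), zero_mul],
      add_zero, Finset.sum_congr rfl (g := fun _ => c i ^ r) fun k hk => by
        rw [(Finset.mem_filter.1 hk).2, hL, show (Lagrange.basis F id (c i)).eval (c i) = 1 from
          Lagrange.eval_basis_self (Set.injOn_id _) (Finset.mem_image_of_mem c (Finset.mem_univ i)),
          one_mul],
      Finset.sum_const, nsmul_eq_mul]
  choose z hz using h
  set M : Submodule ℤ ℂ := Submodule.span ℤ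
    ((Finset.range (L.natDegree + 1)).image fun l => L.coeff l / ((N : ℂ) * D) : Set ℂ)
  have hmem : ∀ r : ℕ, c i ^ r ∈ M := fun r => by
    have hs : c i ^ r = ∑ l ∈ Finset.range (L.natDegree + 1),
        z (r + l) • (L.coeff l / ((N : ℂ) * D)) := by
      refine mul_left_cancel₀ (mul_ne_zero hN0 hD0) ?_
      rw [Finset.mul_sum, mul_right_comm, ← hsel r, Finset.sum_mul]
      simp only [eval_eq_sum_range, Finset.sum_mul]
      rw [Finset.sum_comm]
      refine Finset.sum_congr rfl fun l _ => ?_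
      rw [zsmul_eq_mul, ← hz (r + l), Finset.mul_sum, Finset.sum_mul, Finset.mul_sum]
      refine Finset.sum_congr rfl fun k _ => ?_
      rw [pow_add]
      field_simp
    rw [hs]
    exact Submodule.sum_mem _ fun l hl => Submodule.smul_mem _ _
      (Submodule.subset_span (Finset.mem_image_of_mem _ hl))
  have hfg : M.FG := ⟨_, rfl⟩
  haveI := Module.Finite.iff_fg.2 hfg
  refine IsIntegral.of_mem_of_fg (Algebra.adjoin ℤ {c i}) ?_ _
    (Algebra.self_mem_adjoin_singleton ℤ _)
  refine Submodule.FG.of_le_of_isNoetherian (T := M) ?_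
  rw [Algebra.adjoin_eq_span, Submodule.span_le]
  intro y hy
  obtain ⟨r, rfl⟩ := Submonoid.mem_closure_singleton.1 hy
  exact hmem r

/-- **Rationality of the symmetric functions.** -/
theorem esymm_rat (h : ∀ r, ∃ q : ℚ, ∑ k, c k ^ r = q) (j : ℕ) :
    ∃ q : ℚ, (Finset.univ.val.map c).esymm j = q := by
  classical
  induction j using Nat.strong_induction_on with
  | _ j ih =>
    rcases Nat.eq_zero_or_pos j with rfl | hj
    · exact ⟨1, by simp [Multiset.esymm]⟩
    have e := congrArg (MvPolynomial.aeval c) (MvPolynomial.mul_esymm_eq_sum ι ℂ j)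
    simp only [map_mul, map_natCast, map_sum, map_pow, map_neg, map_one,
      MvPolynomial.aeval_esymm_eq_multiset_esymm, MvPolynomial.psum, MvPolynomial.aeval_X] at e
    choose q hq using h
    choose w hw using ih
    have hrat : ∀ a ∈ (Finset.HasAntidiagonal.antidiagonal j).filter (fun a => a.1 < j),
        ∃ t : ℚ, (-1 : ℂ) ^ a.1 * (Finset.univ.val.map c).esymm a.1 * ∑ k, c k ^ a.2 = t :=
      fun a ha => ⟨(-1) ^ a.1 * w a.1 (Finset.mem_filter.1 ha).2 * q a.2, by
        rw [hw _ (Finset.mem_filter.1 ha).2, hq]; push_cast; rfl⟩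
    choose t ht using hrat
    refine ⟨(-1) ^ (j + 1) * (∑ a ∈ ((Finset.HasAntidiagonal.antidiagonal j).filter
      fun a => a.1 < j).attach, t a.1 a.2) / j, ?_⟩
    push_cast
    rw [eq_div_iff (Nat.cast_ne_zero.2 hj.ne'), mul_comm, e, ← Finset.sum_attach]
    exact congrArg _ (Finset.sum_congr rfl fun a _ => ht a.1 a.2)

theorem powerSum_rat (hD : D ≠ 0) (h : ∀ r, ∃ z : ℤ, (D : ℂ) * ∑ k, c k ^ r = z) (r : ℕ) :
    ∃ q : ℚ, ∑ k, c k ^ r = q := by
  obtain ⟨z, hz⟩ := h r
  exact ⟨(z : ℚ) / D, by push_cast; rw [eq_div_iff (Nat.cast_ne_zero.2 hD), mul_comm, hz]⟩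

theorem eq_intCast_of_rat {x : ℂ} (hx : IsIntegral ℤ x) {q : ℚ} (hq : x = q) :
    ∃ z : ℤ, x = z := by
  subst hq
  rw [show ((q : ℚ) : ℂ) = algebraMap ℚ ℂ q from rfl] at hx
  obtain ⟨z, hz⟩ := IsIntegrallyClosed.isIntegral_iff.1
    ((isIntegral_algebraMap_iff (algebraMap ℚ ℂ).injective).1 hx)
  exact ⟨z, by rw [← hz]; simp⟩

/-- **Integer coefficients.** -/
theorem exists_int_poly (hD : D ≠ 0) (h : ∀ r, ∃ z : ℤ, (D : ℂ) * ∑ k, c k ^ r = z) :
    ∃ P : ℤ[X], P.Monic ∧ P.map (Int.castRingHom ℂ) = ∏ k, (X - C (c k)) := by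
  classical
  have he : ∀ j, ∃ z : ℤ, (Finset.univ.val.map c).esymm j = z := fun j => by
    obtain ⟨q, hq⟩ := esymm_rat (powerSum_rat hD h) j
    refine eq_intCast_of_rat ?_ hq
    rw [Finset.esymm_map_val]
    exact IsIntegral.sum _ fun t _ =>
      IsIntegral.prod _ fun k _ => isIntegral_of_powerSums hD h k
  have hlift : (∏ k, (X - C (c k))) ∈ Polynomial.lifts (Int.castRingHom ℂ) := by
    have e := Multiset.prod_X_sub_X_eq_sum_esymm (Finset.univ.val.map c)
    rw [Multiset.map_map] at e
    rw [Finset.prod, show (fun k => X - C (c k)) = (fun t => X - C t) ∘ c from rfl, e]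
    refine sum_mem fun j _ => mul_mem (pow_mem ?_ _) (mul_mem ?_ (pow_mem (X_mem_lifts _) _))
    · exact ⟨-1, by simp⟩
    · obtain ⟨z, hz⟩ := he j
      rw [hz]
      exact C_mem_lifts (Int.castRingHom ℂ) z
  obtain ⟨P, hP, -, hm⟩ := Polynomial.lifts_and_degree_eq_and_monic hlift
    (monic_prod_of_monic _ _ fun k _ => monic_X_sub_C _)
  exact ⟨P, hm, hP⟩

/-- **The sum is an integer.** -/
theorem exists_int_sum (hD : D ≠ 0) (h : ∀ r, ∃ z : ℤ, (D : ℂ) * ∑ k, c k ^ r = z) :
    ∃ z : ℤ, ∑ k, c k = z := by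
  obtain ⟨q, hq⟩ := powerSum_rat hD h 1
  simp only [pow_one] at hq
  exact eq_intCast_of_rat (IsIntegral.sum _ fun k _ => isIntegral_of_powerSums hD h k) hq

end FA.QuaternionArith

end
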