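import Fermat.Agent.QuaternionArith.Terms

/-!
# The arithmetic Hecke ring

`arith m n` is `n ^ (m - 1)` times the Hecke operator of weight `2 m`; the span of these over `ℤ`
is closed under products and its traces have denominators dividing `24`.
-/

set_option autoImplicit false
set_option linter.unusedSectionVars false
set_option linter.style.haveILetI false

noncomputable section

open Set
open UpperHalfPlane hiding I
open FA.CocompactForms FA.CocompactDegree FA.QuaternionHecke
open FA.QuaternionTrace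
open scoped MatrixGroups

namespace FA.QuaternionArith

/-- The arithmetically normalised Hecke operator in weight `2 m`. -/
def arith (m : ℕ) (n : ℕ+) : Module.End ℂ (forms orderUnits ((2 * m : ℕ) : ℤ)) :=
  (((n : ℕ) : ℂ) ^ (m - 1)) • hecke ((2 * m : ℕ) : ℤ) n

/-- The span of the arithmetically normalised operators over `ℤ`. -/
def heckeSpan (m : ℕ) : Submodule ℤ (Module.End ℂ (forms orderUnits ((2 * m : ℕ) : ℤ))) :=
  Submodule.span ℤ (range (arith m))

theorem arith_mem (m : ℕ) (n : ℕ+) : arith m n ∈ heckeSpan m :=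
  Submodule.subset_span ⟨n, rfl⟩

theorem castSmul_mem {k : ℤ} {S : Submodule ℤ (Module.End ℂ (forms orderUnits k))}
    {X : Module.End ℂ (forms orderUnits k)} (hX : X ∈ S) (z : ℤ) : (z : ℂ) • X ∈ S := by
  convert S.smul_mem z hX using 1
  refine LinearMap.ext fun f => ?_
  simp [Int.cast_smul_eq_zsmul]

theorem arith_one (m : ℕ) : arith m 1 = 1 := by
  rw [arith, hecke_one, PNat.one_coe, Nat.cast_one, one_pow, one_smul]

theorem arith_mul (m : ℕ) {a b : ℕ+} (h : (a : ℕ).Coprime b) :
    arith m a * arith m b = arith m (a * b) := by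
  rw [arith, arith, arith, smul_mul_assoc, mul_smul_comm, smul_smul, hecke_mul _ h.symm,
    mul_comm b a, PNat.mul_coe]
  congr 1
  push_cast
  ring

theorem arith_prime_pow (m : ℕ) {p : ℕ+} (hp : (p : ℕ).Prime) (r : ℕ) :
    arith m p * arith m (p ^ (r + 1)) = arith m (p ^ (r + 2)) +
      (((((reps p).card : ℤ) - 1) * ((p : ℕ) : ℤ) ^ (2 * (m - 1)) : ℤ) : ℂ) •
        arith m (p ^ r) := by
  rw [arith, arith, arith, arith, smul_mul_assoc, mul_smul_comm, smul_smul,
    hecke_prime_pow _ hp r, smul_add, smul_smul, smul_smul,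
    PNat.pow_coe, PNat.pow_coe, PNat.pow_coe]
  congr 2 <;> push_cast <;> ring

/-- The span of the operators at the powers of one prime. -/
def powerSpan (m : ℕ) (p : ℕ+) :
    Submodule ℤ (Module.End ℂ (forms orderUnits ((2 * m : ℕ) : ℤ))) :=
  Submodule.span ℤ (range fun j => arith m (p ^ j))

theorem arith_mul_powerSpan (m : ℕ) {p : ℕ+} (hp : (p : ℕ).Prime) (i : ℕ) :
    ∀ X ∈ powerSpan m p, arith m (p ^ i) * X ∈ powerSpan m p := by
  induction i using Nat.strong_induction_on with
  | _ i ih =>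
    match i with
    | 0 =>
      intro X hX
      rwa [pow_zero, arith_one, one_mul]
    | 1 =>
      intro X hX
      rw [pow_one]
      induction hX using Submodule.span_induction with
      | mem X hX =>
        obtain ⟨j, rfl⟩ := hX
        match j with
        | 0 =>
          simp only [pow_zero, arith_one, mul_one]
          exact Submodule.subset_span ⟨1, by simp⟩
        | j + 1 =>
          simp only [arith_prime_pow m hp j]
          have hm1 : ∀ l, arith m (p ^ l) ∈ powerSpan m p := fun l =>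
            Submodule.subset_span (Set.mem_range_self (f := fun j => arith m (p ^ j)) l)
          exact add_mem (hm1 _) (castSmul_mem (hm1 j) _)
      | zero => rw [mul_zero]; exact zero_mem _
      | add X Y _ _ hX hY => rw [mul_add]; exact add_mem hX hY
      | smul z X _ hX => rw [mul_smul_comm]; exact Submodule.smul_mem _ _ hX
    | r + 2 =>
      intro X hX
      obtain ⟨z, e⟩ : ∃ z : ℤ, arith m p * arith m (p ^ (r + 1)) =
          arith m (p ^ (r + 2)) + (z : ℂ) • arith m (p ^ r) := ⟨_, arith_prime_pow m hp r⟩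
      rw [show arith m (p ^ (r + 2)) * X = arith m p * (arith m (p ^ (r + 1)) * X) +
          ((-z : ℤ) : ℂ) • (arith m (p ^ r) * X) from LinearMap.ext fun f => by
        have h := LinearMap.congr_fun e (X f)
        simp only [Module.End.mul_apply, LinearMap.add_apply, LinearMap.smul_apply] at h ⊢
        rw [h, Int.cast_neg, add_assoc, ← add_smul, add_neg_cancel, zero_smul, add_zero]]
      exact add_mem (by simpa using ih 1 (by omega) _ (ih (r + 1) (by omega) X hX))
        (castSmul_mem (ih r (by omega) X hX) (-z))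

theorem arith_mul_mem (m : ℕ) (a : ℕ+) : ∀ X ∈ heckeSpan m, arith m a * X ∈ heckeSpan m := by
  suffices H : ∀ n : ℕ, ∀ hn : 0 < n, ∀ X ∈ heckeSpan m, arith m ⟨n, hn⟩ * X ∈ heckeSpan m from
    H a a.pos
  intro n
  induction n using Nat.recOnPrimeCoprime with
  | zero => intro hn; exact absurd hn (lt_irrefl 0)
  | prime_pow p i hp =>
    intro hn X hX
    induction hX using Submodule.span_induction with
    | mem X hX =>
      obtain ⟨b, rfl⟩ := hX
      obtain ⟨j, b', hb', hb⟩ := Nat.exists_eq_pow_mul_and_not_dvd b.ne_zero p hp.ne_one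
      set P : ℕ+ := ⟨p, hp.pos⟩ with hP
      have hb'0 : 0 < b' := Nat.pos_of_ne_zero fun h => hb' (h ▸ dvd_zero p)
      set B : ℕ+ := ⟨b', hb'0⟩ with hB
      have hcop : ∀ l, ((P ^ l : ℕ+) : ℕ).Coprime B := fun l => by
        rw [PNat.pow_coe]
        exact Nat.Coprime.pow_left l (hp.coprime_iff_not_dvd.2 hb')
      rw [show (⟨p ^ i, hn⟩ : ℕ+) = P ^ i from
          PNat.eq (show p ^ i = _ from (PNat.pow_coe P i).symm),
        show b = P ^ j * B from PNat.eq (by rw [PNat.mul_coe, PNat.pow_coe]; exact hb),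
        ← arith_mul m (hcop j), ← mul_assoc]
      have hmem := arith_mul_powerSpan m (p := P) hp i _ (Submodule.subset_span ⟨j, rfl⟩)
      generalize arith m (P ^ i) * arith m (P ^ j) = Y at hmem
      induction hmem using Submodule.span_induction with
      | mem Y hY =>
        obtain ⟨l, rfl⟩ := hY
        simp only [arith_mul m (hcop l)]
        exact arith_mem m _
      | zero => rw [zero_mul]; exact zero_mem _
      | add Y Z _ _ hY hZ => rw [add_mul]; exact add_mem hY hZ
      | smul z Y _ hY => rw [smul_mul_assoc]; exact Submodule.smul_mem _ _ hY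
    | zero => rw [mul_zero]; exact zero_mem _
    | add X Y _ _ hX hY => rw [mul_add]; exact add_mem hX hY
    | smul z X _ hX => rw [mul_smul_comm]; exact Submodule.smul_mem _ _ hX
  | coprime x y hx hy hxy ihx ihy =>
    intro hn X hX
    have hx0 : 0 < x := by omega
    have hy0 : 0 < y := by omega
    set A : ℕ+ := ⟨x, hx0⟩ with hA
    set B : ℕ+ := ⟨y, hy0⟩ with hB
    rw [show (⟨x * y, hn⟩ : ℕ+) = A * B from rfl, ← arith_mul m (a := A) (b := B) hxy, mul_assoc]
    exact ihx hx0 _ (ihy hy0 X hX)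

theorem pow_arith_mem (m : ℕ) (n : ℕ+) : ∀ r : ℕ, arith m n ^ r ∈ heckeSpan m
  | 0 => by rw [pow_zero, ← arith_one m]; exact arith_mem m 1
  | r + 1 => by rw [pow_succ']; exact arith_mul_mem m n _ (pow_arith_mem m n r)

theorem trace_eq_sum {ι : Type*} [Fintype ι] {k : ℤ} (b : Module.Basis ι ℂ (forms orderUnits k))
    {X : Module.End ℂ (forms orderUnits k)} {x : ι → ℂ} (h : ∀ i, X (b i) = x i • b i) :
    LinearMap.trace ℂ (forms orderUnits k) X = ∑ i, x i := by
  classical
  rw [LinearMap.trace_eq_matrix_trace ℂ b, Matrix.trace]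
  refine Finset.sum_congr rfl fun i _ => ?_
  rw [Matrix.diag_apply, LinearMap.toMatrix_apply, h, map_smul, Module.Basis.repr_self]
  simp

theorem trace_hecke_real (m : ℕ) (n : ℕ+) :
    (LinearMap.trace ℂ (forms orderUnits ((2 * m : ℕ) : ℤ))
      (hecke ((2 * m : ℕ) : ℤ) n)).im = 0 := by
  obtain ⟨b, c, h⟩ := exists_eigenbasis (2 * m)
  rw [trace_eq_sum b fun i => h i n]
  simp

/-- **Bounded denominators.** -/
theorem trace_arith {m : ℕ} (hm : 2 ≤ m) (n : ℕ+) :
    ∃ z : ℤ, 24 * LinearMap.trace ℂ (forms orderUnits ((2 * m : ℕ) : ℤ)) (arith m n) = z := by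
  haveI : NeZero (n : ℕ) := ⟨n.ne_zero⟩
  choose z hz using fun x : Quotient (conjSetoid (ellSet (n : ℕ))) =>
    ellTerm_int x.out (m := m) (by omega)
  set T := LinearMap.trace ℂ (forms orderUnits ((2 * m : ℕ) : ℤ)) (hecke ((2 * m : ℕ) : ℤ) n)
    with hT
  refine ⟨(if IsSquare (n : ℕ) then 4 * ((n : ℕ) : ℤ) ^ (m - 1) * (2 * (m : ℤ) - 1) else 0) +
    ∑ x, z x, ?_⟩
  have e : LinearMap.trace ℂ (forms orderUnits ((2 * m : ℕ) : ℤ)) (arith m n) =
      ((n : ℕ) : ℂ) ^ (m - 1) * ((T.re : ℝ) : ℂ) := by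
    rw [arith, map_smul, smul_eq_mul]
    exact congrArg _ (Complex.ext rfl (trace_hecke_real m n))
  have hre : T.re = (if IsSquare (n : ℕ) then (2 * (m : ℝ) - 1) / 6 else 0) +
      ∑ x : Quotient (conjSetoid (ellSet (n : ℕ))), (ellTerm m x.out).re := by
    rw [hT, trace_hecke n hm, Complex.add_re, Complex.re_sum]
    congr 1
    split_ifs <;> simp
  have key : 24 * (((n : ℕ) : ℝ) ^ (m - 1) * T.re) =
      (if IsSquare (n : ℕ) then 4 * ((n : ℕ) : ℝ) ^ (m - 1) * (2 * (m : ℝ) - 1) else 0) +
        ∑ x, (z x : ℝ) := by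
    rw [hre, mul_add, mul_add, Finset.mul_sum, Finset.mul_sum]
    refine congrArg₂ _ ?_ (Finset.sum_congr rfl fun x _ => ?_)
    · split_ifs <;> ring
    · rw [← hz x]; ring
  rw [e, show (24 : ℂ) * (((n : ℕ) : ℂ) ^ (m - 1) * ((T.re : ℝ) : ℂ)) =
    ((24 * (((n : ℕ) : ℝ) ^ (m - 1) * T.re) : ℝ) : ℂ) by push_cast; rfl, key]
  split_ifs <;> push_cast <;> rfl

theorem trace_mem {m : ℕ} (hm : 2 ≤ m) :
    ∀ X ∈ heckeSpan m,
      ∃ z : ℤ, 24 * LinearMap.trace ℂ (forms orderUnits ((2 * m : ℕ) : ℤ)) X = z := by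
  intro X hX
  induction hX using Submodule.span_induction with
  | mem X hX =>
    obtain ⟨n, rfl⟩ := hX
    exact trace_arith hm n
  | zero => exact ⟨0, by simp⟩
  | add X Y _ _ hX hY =>
    obtain ⟨a, ha⟩ := hX
    obtain ⟨b, hb⟩ := hY
    exact ⟨a + b, by rw [map_add, mul_add, ha, hb]; push_cast; rfl⟩
  | smul z X _ hX =>
    obtain ⟨a, ha⟩ := hX
    exact ⟨z * a, by
      rw [LinearMap.map_smul_of_tower, zsmul_eq_mul, mul_left_comm, ha]; push_cast; rfl⟩

end FA.QuaternionArith

end
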