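import Fermat.Agent.QuaternionArith.Ring
import Fermat.Agent.QuaternionArith.PowerSums
import Fermat.Agent.QuaternionArith.Conjugates
import Mathlib.LinearAlgebra.Charpoly.ToMatrix

/-!
# The arithmetic of the eigenvalue systems

The eigenvalues of `arith m n` are totally real algebraic integers, its characteristic polynomial
has integer coefficients, and the systems of eigenvalues lie in one totally real number field,
whose embeddings permute them.
-/

set_option autoImplicit false
set_option linter.unusedSectionVars false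
set_option linter.style.haveILetI false

noncomputable section

open Set Polynomial
open UpperHalfPlane hiding I
open FA.CocompactForms FA.CocompactDegree FA.QuaternionHecke
open FA.QuaternionTrace
open scoped MatrixGroups ComplexConjugate

namespace FA.QuaternionArith

variable {ι : Type*} [Fintype ι] {m : ℕ}
  (b : Module.Basis ι ℂ (forms orderUnits ((2 * m : ℕ) : ℤ))) {a : ι → ℕ+ → ℝ}
  (hb : ∀ i n, arith m n (b i) = (a i n : ℂ) • b i)

include hb

theorem exists_vector : ∀ X ∈ heckeSpan m,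
    ∃ x ∈ Submodule.span ℤ (range fun n i => (a i n : ℂ)), ∀ i, X (b i) = x i • b i := by
  intro X hX
  induction hX using Submodule.span_induction with
  | mem X hX =>
    obtain ⟨n, rfl⟩ := hX
    exact ⟨_, Submodule.subset_span ⟨n, rfl⟩, fun i => hb i n⟩
  | zero => exact ⟨0, zero_mem _, fun i => by simp⟩
  | add X Y _ _ hX hY =>
    obtain ⟨x, hx, hx'⟩ := hX
    obtain ⟨y, hy, hy'⟩ := hY
    exact ⟨x + y, add_mem hx hy, fun i => by simp [hx', hy', add_smul]⟩
  | smul z X _ hX =>
    obtain ⟨x, hx, hx'⟩ := hX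
    refine ⟨z • x, Submodule.smul_mem _ _ hx, fun i => ?_⟩
    simp only [LinearMap.smul_apply, hx', Pi.smul_apply]
    rw [smul_assoc]

theorem vector_mem (X : Module.End ℂ (forms orderUnits ((2 * m : ℕ) : ℤ))) (hX : X ∈ heckeSpan m)
    {y : ι → ℂ} (hy : ∀ i, X (b i) = y i • b i) :
    y ∈ Submodule.span ℤ (range fun n i => (a i n : ℂ)) := by
  obtain ⟨x, hx, hx'⟩ := exists_vector b hb X hX
  convert hx using 1
  exact funext fun i => smul_left_injective ℂ (b.ne_zero i) ((hy i).symm.trans (hx' i))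

theorem closure_le : ∀ x ∈ Submonoid.closure (range fun n i => (a i n : ℂ)),
    x ∈ Submodule.span ℤ (range fun n i => (a i n : ℂ)) := by
  intro x hx
  suffices h : ∃ X ∈ heckeSpan m, ∀ i, X (b i) = x i • b i by
    obtain ⟨X, hX, hX'⟩ := h
    exact vector_mem b hb X hX hX'
  induction hx using Submonoid.closure_induction_left with
  | one => exact ⟨1, arith_one m ▸ arith_mem m 1, fun i => by simp⟩
  | mul_left v hv y _ hy =>
    obtain ⟨n, rfl⟩ := hv
    obtain ⟨X, hX, hX'⟩ := hy
    refine ⟨arith m n * X, arith_mul_mem m n X hX, fun i => ?_⟩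
    rw [Module.End.mul_apply, hX', map_smul, hb, smul_smul, Pi.mul_apply, mul_comm (y i)]

theorem sum_int (hm : 2 ≤ m) : ∀ x ∈ Submodule.span ℤ (range fun n i => (a i n : ℂ)),
    ∃ z : ℤ, 24 * ∑ i, x i = z := by
  intro x hx
  induction hx using Submodule.span_induction with
  | mem x hx =>
    obtain ⟨n, rfl⟩ := hx
    obtain ⟨z, hz⟩ := trace_arith hm n
    rw [trace_eq_sum b (X := arith m n) fun i => hb i n] at hz
    exact ⟨z, hz⟩
  | zero => exact ⟨0, by simp⟩
  | add x y _ _ hx hy =>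
    obtain ⟨u, hu⟩ := hx
    obtain ⟨v, hv⟩ := hy
    exact ⟨u + v, by simp [Finset.sum_add_distrib, mul_add, hu, hv]⟩
  | smul z x _ hx =>
    obtain ⟨u, hu⟩ := hx
    exact ⟨z * u, by
      simp only [Pi.smul_apply, zsmul_eq_mul, ← Finset.mul_sum]
      rw [mul_left_comm, hu]; push_cast; rfl⟩

theorem powerSums (hm : 2 ≤ m) (n : ℕ+) (r : ℕ) :
    ∃ z : ℤ, ((24 : ℕ) : ℂ) * ∑ i, (a i n : ℂ) ^ r = z := by
  obtain ⟨z, hz⟩ := sum_int b hb hm _ (closure_le b hb _
    (pow_mem (Submonoid.subset_closure (mem_range_self n)) r))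
  exact ⟨z, by simpa using hz⟩

theorem isIntegral_eigen (hm : 2 ≤ m) (i : ι) (n : ℕ+) : IsIntegral ℤ (a i n : ℂ) :=
  isIntegral_of_powerSums (by norm_num : (24 : ℕ) ≠ 0) (powerSums b hb hm n) i

theorem charpoly_arith (n : ℕ+) :
    haveI := finiteDimensional_forms ((2 * m : ℕ) : ℤ)
    (arith m n).charpoly = ∏ i, (X - C (a i n : ℂ)) := by
  classical
  haveI := finiteDimensional_forms ((2 * m : ℕ) : ℤ)
  rw [← LinearMap.charpoly_toMatrix (arith m n) b, ← Matrix.charpoly_diagonal]
  congr 1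
  ext k l
  rw [LinearMap.toMatrix_apply, hb, map_smul, Module.Basis.repr_self, Finsupp.smul_single,
    smul_eq_mul, mul_one, Finsupp.single_apply, Matrix.diagonal_apply]
  rcases eq_or_ne k l with rfl | h
  · simp
  · simp [h, h.symm]

/-- **One totally real field for all systems, permuted by its embeddings.** -/
theorem exists_real_field (hm : 2 ≤ m) :
    ∃ L : IntermediateField ℚ ℂ, FiniteDimensional ℚ L ∧
      (∀ (σ : L →+* ℂ) (x : L), (σ x).im = 0) ∧
      ∃ hmem : ∀ i n, (a i n : ℂ) ∈ L, ∀ σ : L →+* ℂ,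
        ∃ π : Equiv.Perm ι, ∀ i n, σ ⟨(a i n : ℂ), hmem i n⟩ = a (π i) n := by
  obtain ⟨L, hfin, hall, ⟨S, hS, hLS⟩, hσ⟩ := exists_field (V := fun n i => (a i n : ℂ))
    (closure_le b hb) (fun x hx => by
      obtain ⟨z, hz⟩ := sum_int b hb hm x hx
      exact ⟨(z : ℚ) / 24, by push_cast; rw [eq_div_iff (by norm_num), mul_comm, hz]⟩)
    fun n i => (isIntegral_eigen b hb hm i n).tower_top
  refine ⟨L, hfin, fun σ x => ?_, fun i n => hall n i, fun σ => ?_⟩
  · obtain ⟨π, hπ⟩ := hσ σ hall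
    have key : ∀ y (hy : y ∈ IntermediateField.adjoin ℚ S), ∀ h : y ∈ L,
        conj (σ ⟨y, h⟩) = σ ⟨y, h⟩ := by
      intro y hy
      induction hy using IntermediateField.adjoin_induction with
      | mem y hy =>
        obtain ⟨n, i, rfl⟩ := hS hy
        intro h
        rw [hπ n i]
        exact Complex.conj_ofReal _
      | algebraMap q =>
        intro h
        rw [show (⟨algebraMap ℚ ℂ q, h⟩ : L) = (q : L) from Subtype.ext (by simp), map_ratCast,
          map_ratCast]
      | add x y hx hy ix iy =>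
        intro h
        rw [show (⟨x + y, h⟩ : L) = ⟨x, hLS ▸ hx⟩ + ⟨y, hLS ▸ hy⟩ from rfl, map_add, map_add,
          ix, iy]
      | inv x hx ix =>
        intro h
        rw [show (⟨x⁻¹, h⟩ : L) = (⟨x, hLS ▸ hx⟩ : L)⁻¹ from Subtype.ext (by simp), map_inv₀,
          map_inv₀, ix]
      | mul x y hx hy ix iy =>
        intro h
        rw [show (⟨x * y, h⟩ : L) = ⟨x, hLS ▸ hx⟩ * ⟨y, hLS ▸ hy⟩ from rfl, map_mul, map_mul,
          ix, iy]
    exact Complex.conj_eq_iff_im.1 (key x (hLS ▸ x.2) x.2)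
  · obtain ⟨π, hπ⟩ := hσ σ hall
    exact ⟨π, fun i n => hπ n i⟩

omit hb in
/-- Real eigenvalues. -/
theorem exists_arith_eigenbasis (m : ℕ) :
    ∃ (b : Module.Basis (Fin (Module.finrank ℂ (forms orderUnits ((2 * m : ℕ) : ℤ)))) ℂ
        (forms orderUnits ((2 * m : ℕ) : ℤ)))
      (a : Fin (Module.finrank ℂ (forms orderUnits ((2 * m : ℕ) : ℤ))) → ℕ+ → ℝ),
      ∀ i n, arith m n (b i) = (a i n : ℂ) • b i := by
  obtain ⟨b, c, h⟩ := exists_eigenbasis (2 * m)
  refine ⟨b, fun i n => ((n : ℕ) : ℝ) ^ (m - 1) * c i n, fun i n => ?_⟩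
  rw [arith, LinearMap.smul_apply, h, smul_smul]
  push_cast
  rfl

end FA.QuaternionArith

end
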