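import Fermat.Agent.QuaternionTrace.Equidistribution

/-!
# The elliptic terms of the trace formula are rational

The real part of `η ^ m / (1 - η)` is `-U (2 m - 2)` at the trace over two, so `n ^ (m - 1)` times
it is a value of an integral Lucas sequence; the centraliser has order dividing `12`.
-/

set_option autoImplicit false
set_option linter.unusedSectionVars false
set_option linter.style.haveILetI false

noncomputable section

open Set Complex
open UpperHalfPlane hiding I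
open FA.CocompactForms FA.CocompactDegree FA.CocompactGaussBonnet FA.QuaternionHecke
open FA.QuaternionTrace
open scoped MatrixGroups ComplexConjugate

namespace FA.QuaternionArith

theorem card_stabilizer_dvd (p : ℍ) : Nat.card (MulAction.stabilizer orderUnits p) ∣ 12 := by
  by_cases hp : p ∈ fixSet orderUnits
  · obtain ⟨i, ⟨γ, hγ⟩⟩ := QuaternionCurve.exists_pt hp
    rw [← Nat.card_congr (MulAction.stabilizerEquivStabilizer hγ.symm).toEquiv]
    obtain ⟨e0, e1, e2, e3⟩ := QuaternionCurve.ellipticPts_apply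
    fin_cases i <;> simp only [Fin.zero_eta, Fin.mk_one, Fin.reduceFinMk]
    · rw [e0, QuaternionCurve.card_stab_I]; norm_num
    · rw [e1, QuaternionCurve.card_stab_ptTwo]; norm_num
    · have h := QuaternionCurve.card_stab_ptThree (σ := 1) (.inl rfl)
      rw [Int.cast_one] at h
      rw [e2, h]; norm_num
    · have h := QuaternionCurve.card_stab_ptThree (σ := -1) (.inr rfl)
      rw [Int.cast_neg, Int.cast_one] at h
      rw [e3, h]; norm_num
  · have e : MulAction.stabilizer orderUnits p = triv orderUnits :=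
      le_antisymm (fun γ hγ => by_contra fun h => hp ⟨γ, hγ, h⟩) (triv_le_stabilizer _ p)
    rw [e, show Nat.card (triv orderUnits) = 2 from QuaternionCurve.trivCard_orderUnits]
    norm_num

theorem centralUnits_le {g : SL(2, ℝ)} {p : ℍ} (hp : g • p = p)
    (h : (g 0 0 + g 1 1) ^ 2 < 4) : centralUnits g ≤ MulAction.stabilizer orderUnits p :=
  fun ζ hζ => by
  show (ζ : SL(2, ℝ)) • p = p
  by_contra hne
  refine etaOf_ne_one_of_trace hp h ?_
  have hall := eq_of_fixed hp (w := (ζ : SL(2, ℝ)) • p) (by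
    rw [← mul_smul, mem_centralUnits.1 hζ, mul_smul, hp]) fun e => hne e.symm
  rcases CocompactHurwitz.eq_one_or_neg_one.1 hall with e | e <;>
    rw [e] at h <;> simp at h <;> norm_num at h

theorem card_centralUnits_dvd {g : SL(2, ℝ)} {p : ℍ} (hp : g • p = p)
    (h : (g 0 0 + g 1 1) ^ 2 < 4) : Nat.card (centralUnits g) ∣ 12 :=
  (Subgroup.card_dvd_of_le (centralUnits_le hp h)).trans (card_stabilizer_dvd p)

theorem jac_add_conj {g : SL(2, ℝ)} {p : ℍ} (h : g • p = p) :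
    jac g p + conj (jac g p) = ((g 0 0 + g 1 1 : ℝ) : ℂ) := by
  rw [UpperHalfPlane.ext_iff, coe_smul_eq_mob, mob, div_eq_iff (jac_ne_zero g p.im_ne_zero)] at h
  simp [jac, Complex.ext_iff] at h ⊢
  have : g 0 0 = g 1 0 * p.re + g 1 1 + p.re * g 1 0 :=
    mul_right_cancel₀ p.im_ne_zero (by linarith [h.2])
  linarith

theorem chebyU_eigen {t : ℝ} {ε : ℂ} (hε : ε ≠ 0) (ht : (t : ℂ) = ε + ε⁻¹) :
    ∀ i : ℕ, (chebyU i t : ℂ) * (ε - ε⁻¹) = ε ^ (i + 1) - (ε⁻¹) ^ (i + 1) := by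
  intro i
  induction i using Nat.strong_induction_on with
  | _ i ih =>
    match i with
    | 0 => simp [chebyU_zero]
    | 1 =>
      rw [chebyU_one, ht]
      ring
    | i + 2 =>
      have h1 := ih (i + 1) (by omega)
      have h0 := ih i (by omega)
      have hu : ε * ε⁻¹ = 1 := mul_inv_cancel₀ hε
      rw [chebyU_add_two, ofReal_sub, ofReal_mul, sub_mul, mul_assoc, h1, h0, ht]
      linear_combination (ε ^ (i + 1) - (ε⁻¹) ^ (i + 1)) * hu

/-- **The real part of an elliptic term.** -/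
theorem re_eta_term {g : SL(2, ℝ)} {p : ℍ} (hp : g • p = p)
    (h : (g 0 0 + g 1 1) ^ 2 < 4) {m : ℕ} (hm : 1 ≤ m) :
    2 * (etaOf g p ^ m / (1 - etaOf g p)).re = -chebyU (2 * m - 2) (g 0 0 + g 1 1) := by
  obtain ⟨i, rfl⟩ : ∃ i, m = i + 1 := ⟨m - 1, by omega⟩
  set ε := jac g p with hεdef
  set u := etaOf g p with hudef
  have hu : u = (ε⁻¹) ^ 2 := by rw [hudef, etaOf, inv_pow]
  have hε : ε ≠ 0 := jac_ne_zero g p.im_ne_zero
  have hc : conj ε = ε⁻¹ := by
    refine eq_inv_of_mul_eq_one_left ?_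
    rw [mul_comm, mul_conj, normSq_eq_norm_sq, norm_jac_of_fixed hp, one_pow, ofReal_one]
  have ht : ((g 0 0 + g 1 1 : ℝ) : ℂ) = ε + ε⁻¹ := by rw [← jac_add_conj hp, ← hc]
  have hu1 : u ≠ 1 := etaOf_ne_one_of_trace hp h
  have hd : ε - ε⁻¹ ≠ 0 := fun e => hu1 (by
    have he : ε⁻¹ = ε := (sub_eq_zero.1 e).symm
    calc u = ε⁻¹ * ε⁻¹ := by rw [hu, sq]
      _ = ε * ε⁻¹ := by rw [he]
      _ = 1 := mul_inv_cancel₀ hε)
  have hmul : ε * ε⁻¹ = 1 := mul_inv_cancel₀ hε
  have e1 : u ^ (i + 1) / (1 - u) = (ε⁻¹) ^ (2 * i + 1) / (ε - ε⁻¹) := by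
    rw [div_eq_div_iff (sub_ne_zero.2 (Ne.symm hu1)) hd, hu, ← pow_mul]
    linear_combination (ε⁻¹) ^ (2 * i + 1) * hmul
  have e2 : conj ((ε⁻¹) ^ (2 * i + 1) / (ε - ε⁻¹)) = -(ε ^ (2 * i + 1) / (ε - ε⁻¹)) := by
    rw [map_div₀, map_pow, map_sub, map_inv₀, hc, inv_inv, ← div_neg, neg_sub]
  have e3 := chebyU_eigen hε ht (2 * i)
  refine ofReal_injective ?_
  rw [← add_conj, e1, e2, ← sub_eq_add_neg, ← sub_div, ofReal_neg,
    div_eq_iff hd, show 2 * (i + 1) - 2 = 2 * i by omega]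
  linear_combination e3

theorem chebyU_scaled {n : ℕ} {t : ℝ} {N : ℤ} (hN : Real.sqrt n * t = N) :
    ∀ i : ℕ, ∃ z : ℤ, Real.sqrt n ^ i * chebyU i t = z := by
  intro i
  induction i using Nat.strong_induction_on with
  | _ i ih =>
    match i with
    | 0 => exact ⟨1, by simp [chebyU_zero]⟩
    | 1 => exact ⟨N, by rw [chebyU_one, pow_one, hN]⟩
    | i + 2 =>
      obtain ⟨a, ha⟩ := ih (i + 1) (by omega)
      obtain ⟨b, hb⟩ := ih i (by omega)
      refine ⟨N * a - n * b, ?_⟩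
      push_cast
      rw [← ha, ← hb, ← hN, chebyU_add_two]
      linear_combination -(Real.sqrt n ^ i * chebyU i t) * Real.sq_sqrt (Nat.cast_nonneg (α := ℝ) n)

theorem ellTerm_int {n : ℕ} (g : ellSet n) {m : ℕ} (hm : 1 ≤ m) :
    ∃ z : ℤ, 24 * (n : ℝ) ^ (m - 1) * (ellTerm m g).re = z := by
  obtain ⟨i, rfl⟩ : ∃ i, m = i + 1 := ⟨m - 1, by omega⟩
  have hp := fixPt_spec g
  obtain ⟨d, hd⟩ := card_centralUnits_dvd hp g.2.2
  obtain ⟨N, hN⟩ := exists_trace (show Real.sqrt n •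
    ((g : SL(2, ℝ)) : Matrix (Fin 2) (Fin 2) ℝ) ∈ order from g.2.1)
  rw [Matrix.trace_smul, Matrix.trace_fin_two, smul_eq_mul] at hN
  obtain ⟨z, hz⟩ := chebyU_scaled hN (2 * i)
  have h2 := re_eta_term hp g.2.2 hm
  rw [show 2 * (i + 1) - 2 = 2 * i by omega] at h2
  refine ⟨-(d * z), ?_⟩
  have hc : (Nat.card (centralUnits (g : SL(2, ℝ))) : ℝ) ≠ 0 := by
    haveI := finite_centralUnits hp g.2.2
    exact Nat.cast_ne_zero.2 Nat.card_pos.ne'
  have hd' : (12 : ℝ) = Nat.card (centralUnits (g : SL(2, ℝ))) * (d : ℝ) := by exact_mod_cast hd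
  have hs : Real.sqrt n ^ (2 * i) = (n : ℝ) ^ i := by
    rw [pow_mul, Real.sq_sqrt (Nat.cast_nonneg n)]
  rw [hs] at hz
  rw [ellTerm, div_natCast_re, show i + 1 - 1 = i by omega]
  push_cast
  rw [← hz, mul_div_assoc', div_eq_iff hc]
  linear_combination (12 * (n : ℝ) ^ i) * h2 -
    (n : ℝ) ^ i * chebyU (2 * i) ((g : SL(2, ℝ)) 0 0 + (g : SL(2, ℝ)) 1 1) * hd'

end FA.QuaternionArith

end
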